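/-
S25, package SC3 (machine), part 1: the `Type u`-valued functor of points of the rigidified
Picard functor cut out by a `SubPicCondition`, and its Zariski sheaf property.
(helper970.)  Builds on `PicTop` (helper6511) and `H3331.Small` (helper3331), both verbatim.

Main results (namespace `Fermat.Agent.S25.MACH.SC3`):
* `IsLocalCut P`, `RigSep P`, `RigGlue P`: the three Zariski-locality inputs, in Prelude terms
  (what package SC2 has to provide; covers are `Scheme.OpenCover.{u}`).
* `picSmall P : Scheme.{u}ᵒᵖ ⥤ Type u` and `picModel P : PicTop.Model c ε P (picSmall P)`.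
* `isSheaf_picSmall` : `IsLocalCut P → RigSep P → RigGlue P →
    Presieve.IsSheaf Scheme.zariskiTopology (picSmall P)`.
-/
import Fermat.Agent.S25.MACH.PicTop
import Fermat.Agent.S25.MACH.H3331.Small

set_option autoImplicit false

universe u

open CategoryTheory CategoryTheory.Limits AlgebraicGeometry AlgebraicGeometry.RelPicard NeronModelInfra
  GoodReductionJacobian Opposite

namespace Fermat.Agent.S25.MACH.SC3

open Fermat.Agent.S25.MACH.PicTop

noncomputable section

variable {R : Type u} [CommRing R] {C : Scheme.{u}} {c : C ⟶ Spec (CommRingCat.of R)}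
  {ε : SchemeHomOver (𝟙 (Spec (CommRingCat.of R))) c}

/-- The cut `P` is Zariski-local on the base. -/
def IsLocalCut (P : SubPicCondition c ε) : Prop :=
  ∀ {T : Scheme.{u}} (t : T ⟶ Spec (CommRingCat.of R)) (M : RigidifiedLineBundle c ε t)
    (𝒰 : Scheme.OpenCover.{u} T),
    (∀ i, P.P (𝒰.f i ≫ t) (M.pullbackAlong ⟨𝒰.f i, rfl⟩)) → P.P t M

/-- (sep): rigidified line bundles in the cut which are isomorphic locally on the base are
isomorphic. -/
def RigSep (P : SubPicCondition c ε) : Prop :=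
  ∀ {T : Scheme.{u}} (t : T ⟶ Spec (CommRingCat.of R)) (M M' : RigidifiedLineBundle c ε t)
    (𝒰 : Scheme.OpenCover.{u} T), P.P t M → P.P t M' →
    (∀ i, Nonempty ((M.pullbackAlong (⟨𝒰.f i, rfl⟩ : SchemeHomOver (𝒰.f i ≫ t) t)).L ≅
      (M'.pullbackAlong (⟨𝒰.f i, rfl⟩ : SchemeHomOver (𝒰.f i ≫ t) t)).L)) →
    Nonempty (M.L ≅ M'.L)

/-- (glue): rigidified line bundles in the cut over the members of an open cover of the base,
isomorphic on the overlaps, glue. -/
def RigGlue (P : SubPicCondition c ε) : Prop :=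
  ∀ {T : Scheme.{u}} (t : T ⟶ Spec (CommRingCat.of R)) (𝒰 : Scheme.OpenCover.{u} T)
    (M : ∀ i, RigidifiedLineBundle c ε (𝒰.f i ≫ t)), (∀ i, P.P (𝒰.f i ≫ t) (M i)) →
    (∀ i j, Nonempty
      (((M i).pullbackAlong (⟨pullback.fst (𝒰.f i) (𝒰.f j), rfl⟩ :
          SchemeHomOver (pullback.fst (𝒰.f i) (𝒰.f j) ≫ 𝒰.f i ≫ t) (𝒰.f i ≫ t))).L ≅
        ((M j).pullbackAlong (⟨pullback.snd (𝒰.f i) (𝒰.f j),
          by rw [← Category.assoc, ← pullback.condition, Category.assoc]⟩ :
          SchemeHomOver (pullback.fst (𝒰.f i) (𝒰.f j) ≫ 𝒰.f i ≫ t) (𝒰.f j ≫ t))).L)) →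
    ∃ N : RigidifiedLineBundle c ε t,
      ∀ i, Nonempty ((N.pullbackAlong (⟨𝒰.f i, rfl⟩ : SchemeHomOver (𝒰.f i ≫ t) t)).L ≅ (M i).L)

/-! ### Smallness and the `Type u`-valued functor -/

/-- The invariant used to prove smallness: structure map and class. -/
def picQInv (P : SubPicCondition c ε) (T : Scheme.{u}) :
    PicQ c ε P T → Σ t : T ⟶ Spec (CommRingCat.of R), RigidifiedLineBundle.Classes c ε t :=
  Quotient.lift (s := Obj.setoid P T) (fun a => ⟨a.t, Quotient.mk _ a.M⟩) (by
    rintro ⟨t, M, hM⟩ ⟨t', M', hM'⟩ h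
    obtain ⟨h1, h2⟩ := h
    dsimp only at h1
    subst h1
    obtain ⟨e⟩ := (Obj.rel_mk_iff M M' hM hM').1 ⟨rfl, h2⟩
    exact congrArg (Sigma.mk t) (Quotient.sound ⟨e⟩))

theorem picQInv_injective (P : SubPicCondition c ε) (T : Scheme.{u}) :
    Function.Injective (picQInv P T) := by
  intro x y h
  obtain ⟨t, M, hM, rfl⟩ := x.exists_mk
  obtain ⟨t', M', hM', rfl⟩ := y.exists_mk
  have h' : (⟨t, Quotient.mk _ M⟩ :
      Σ t : T ⟶ Spec (CommRingCat.of R), RigidifiedLineBundle.Classes c ε t) =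
      ⟨t', Quotient.mk _ M'⟩ := h
  obtain ⟨h1, h2⟩ := Sigma.mk.inj_iff.1 h'
  subst h1
  have h3 : Nonempty (M.L ≅ M'.L) := Quotient.exact (eq_of_heq h2)
  exact (PicQ.mk_eq_mk_iff M M' hM hM').2 h3

instance small_picQ (P : SubPicCondition c ε) (T : Scheme.{u}) : Small.{u} (PicQ c ε P T) := by
  have : ∀ t : T ⟶ Spec (CommRingCat.of R), Small.{u} (RigidifiedLineBundle.Classes c ε t) :=
    fun t => Fermat.Agent.S25.MACH.H3331.small_classes c ε t
  exact small_of_injective (picQInv_injective P T)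

/-- The functor of points `T ↦ {(t, class of a rigidified bundle in the cut)}`, valued in
`Type u`. -/
def picSmall (P : SubPicCondition c ε) : Scheme.{u}ᵒᵖ ⥤ Type u where
  obj T := Shrink.{u} (PicQ c ε P T.unop)
  map ψ := TypeCat.ofHom (fun x => equivShrink _ (PicQ.map ψ.unop ((equivShrink _).symm x)))
  map_id T := TypeCat.homEquiv.injective (funext fun x => by
    simp [PicQ.map_id])
  map_comp ψ χ := TypeCat.homEquiv.injective (funext fun x => by
    simp [PicQ.map_comp])

/-- The comparison `picSmall P (T) ≃ PicQ P T`. -/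
def picEquiv (P : SubPicCondition c ε) (T : Scheme.{u}) :
    (picSmall P).obj (op T) ≃ PicQ c ε P T :=
  (equivShrink (PicQ c ε P T)).symm

theorem picEquiv_map (P : SubPicCondition c ε) {T T' : Scheme.{u}} (ψ : T' ⟶ T)
    (x : (picSmall P).obj (op T)) :
    picEquiv P T' ((picSmall P).map ψ.op x) = PicQ.map ψ (picEquiv P T x) :=
  (equivShrink (PicQ c ε P T')).symm_apply_apply _

/-- `picSmall P` is a model of `PicTop.picFunctor`. -/
def picModel (P : SubPicCondition c ε) : Model c ε P (picSmall P) where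
  e T := picEquiv P T
  e_map ψ x := picEquiv_map P ψ x

/-- The element of `picSmall P` given by a bundle. -/
def picMk (P : SubPicCondition c ε) {T : Scheme.{u}} (t : T ⟶ Spec (CommRingCat.of R))
    (M : RigidifiedLineBundle c ε t) (hM : P.P t M) : (picSmall P).obj (op T) :=
  (picEquiv P T).symm (PicQ.mk t M hM)

theorem exists_picMk (P : SubPicCondition c ε) {T : Scheme.{u}} (x : (picSmall P).obj (op T)) :
    ∃ (t : T ⟶ Spec (CommRingCat.of R)) (M : RigidifiedLineBundle c ε t) (hM : P.P t M),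
      x = picMk P t M hM := by
  obtain ⟨t, M, hM, h⟩ := (picEquiv P T x).exists_mk
  exact ⟨t, M, hM, ((picEquiv P T).symm_apply_eq.2 h.symm).symm⟩

theorem picSmall_map_picMk (P : SubPicCondition c ε) {T T' : Scheme.{u}} (ψ : T' ⟶ T)
    (t : T ⟶ Spec (CommRingCat.of R)) (M : RigidifiedLineBundle c ε t) (hM : P.P t M) :
    (picSmall P).map ψ.op (picMk P t M hM) =
      picMk P (ψ ≫ t) (M.pullbackAlong ⟨ψ, rfl⟩) (P.pullback_mem _ _ _ _ hM) := by
  apply (picEquiv P T').injective
  rw [picEquiv_map, picMk, picMk, Equiv.apply_symm_apply, Equiv.apply_symm_apply, PicQ.map_mk]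

theorem picMk_eq_picMk_iff (P : SubPicCondition c ε) {T : Scheme.{u}}
    {t : T ⟶ Spec (CommRingCat.of R)} (M M' : RigidifiedLineBundle c ε t) (hM : P.P t M)
    (hM' : P.P t M') : picMk P t M hM = picMk P t M' hM' ↔ Nonempty (M.L ≅ M'.L) := by
  rw [picMk, picMk, (picEquiv P T).symm.apply_eq_iff_eq, PicQ.mk_eq_mk_iff]

/-- The structure map of an element of `picSmall P`. -/
def picBase (P : SubPicCondition c ε) {T : Scheme.{u}} (x : (picSmall P).obj (op T)) :
    T ⟶ Spec (CommRingCat.of R) :=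
  (picEquiv P T x).base

@[simp] theorem picBase_picMk (P : SubPicCondition c ε) {T : Scheme.{u}}
    (t : T ⟶ Spec (CommRingCat.of R)) (M : RigidifiedLineBundle c ε t) (hM : P.P t M) :
    picBase P (picMk P t M hM) = t := by
  rw [picBase, picMk, Equiv.apply_symm_apply, PicQ.base_mk]

theorem picBase_map (P : SubPicCondition c ε) {T T' : Scheme.{u}} (ψ : T' ⟶ T)
    (x : (picSmall P).obj (op T)) : picBase P ((picSmall P).map ψ.op x) = ψ ≫ picBase P x := by
  obtain ⟨t, M, hM, rfl⟩ := exists_picMk P x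
  rw [picSmall_map_picMk, picBase_picMk, picBase_picMk]

/-- An element with prescribed structure map has a representative over that structure map. -/
theorem exists_picMk_of_base (P : SubPicCondition c ε) {T : Scheme.{u}}
    (x : (picSmall P).obj (op T)) (t : T ⟶ Spec (CommRingCat.of R)) (ht : picBase P x = t) :
    ∃ (M : RigidifiedLineBundle c ε t) (hM : P.P t M), x = picMk P t M hM := by
  obtain ⟨t', M, hM, rfl⟩ := exists_picMk P x
  rw [picBase_picMk] at ht
  subst ht
  exact ⟨M, hM, rfl⟩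

/-- Comparing an element with a pulled back element. -/
theorem picMk_eq_map_picMk_iff (P : SubPicCondition c ε) {S S' : Scheme.{u}} (ψ : S' ⟶ S)
    {s : S ⟶ Spec (CommRingCat.of R)} (N : RigidifiedLineBundle c ε s) (hN : P.P s N)
    {a : S' ⟶ Spec (CommRingCat.of R)} (A : RigidifiedLineBundle c ε a) (hA : P.P a A) :
    picMk P a A hA = (picSmall P).map ψ.op (picMk P s N hN) ↔
      ∃ h : ψ ≫ s = a, Nonempty (A.L ≅ (N.pullbackAlong ⟨ψ, h⟩).L) := by
  constructor
  · intro h
    have hb := congrArg (picBase P) h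
    rw [picBase_map, picBase_picMk, picBase_picMk] at hb
    subst hb
    rw [picSmall_map_picMk, picMk_eq_picMk_iff] at h
    exact ⟨rfl, h⟩
  · rintro ⟨h, e⟩
    subst h
    rw [picSmall_map_picMk, picMk_eq_picMk_iff]
    exact e

/-! ### The Zariski sheaf property -/

/-- **B1 / SC2 ⇒ sheaf.**  Under (loc), (sep), (glue), the functor `picSmall P` is a sheaf for
the Zariski topology on schemes. -/
theorem isSheaf_picSmall (P : SubPicCondition c ε) (hloc : IsLocalCut P) (hsep : RigSep P)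
    (hglue : RigGlue P) : Presieve.IsSheaf Scheme.zariskiTopology (picSmall P) := by
  rw [Scheme.zariskiTopology, Scheme.grothendieckTopology,
    Precoverage.isSheaf_toGrothendieck_iff_of_isStableUnderBaseChange_of_small.{u}]
  intro Y 𝓤
  let 𝒰 : Scheme.OpenCover.{u} Y := 𝓤
  change Presieve.IsSheafFor (picSmall P) (Presieve.ofArrows 𝒰.X 𝒰.f)
  intro x hx
  let y : ∀ j, (picSmall P).obj (op (𝒰.X j)) := fun j => x (𝒰.f j) (.mk j)
  have hy : ∀ i j, (picSmall P).map (pullback.fst (𝒰.f i) (𝒰.f j)).op (y i) =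
      (picSmall P).map (pullback.snd (𝒰.f i) (𝒰.f j)).op (y j) :=
    fun i j => hx _ _ (.mk i) (.mk j) pullback.condition
  let b : ∀ j, 𝒰.X j ⟶ Spec (CommRingCat.of R) := fun j => picBase P (y j)
  have hb : ∀ i j, pullback.fst (𝒰.f i) (𝒰.f j) ≫ b i = pullback.snd (𝒰.f i) (𝒰.f j) ≫ b j := by
    intro i j
    have := congrArg (picBase P) (hy i j)
    rwa [picBase_map, picBase_map] at this
  let t : Y ⟶ Spec (CommRingCat.of R) := 𝒰.glueMorphisms b hb
  have ht : ∀ j, 𝒰.f j ≫ t = b j := fun j => 𝒰.ι_glueMorphisms b hb j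
  have key : ∀ j, ∃ (M : RigidifiedLineBundle c ε (𝒰.f j ≫ t)) (hM : P.P _ M),
      y j = picMk P _ M hM :=
    fun j => exists_picMk_of_base P (y j) _ (ht j).symm
  choose M hM hyM using key
  have hov : ∀ i j, Nonempty
      (((M i).pullbackAlong (⟨pullback.fst (𝒰.f i) (𝒰.f j), rfl⟩ :
          SchemeHomOver (pullback.fst (𝒰.f i) (𝒰.f j) ≫ 𝒰.f i ≫ t) (𝒰.f i ≫ t))).L ≅
        ((M j).pullbackAlong (⟨pullback.snd (𝒰.f i) (𝒰.f j),
          by rw [← Category.assoc, ← pullback.condition, Category.assoc]⟩ :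
          SchemeHomOver (pullback.fst (𝒰.f i) (𝒰.f j) ≫ 𝒰.f i ≫ t) (𝒰.f j ≫ t))).L) := by
    intro i j
    have h := hy i j
    rw [hyM i, hyM j, picSmall_map_picMk, picMk_eq_map_picMk_iff] at h
    obtain ⟨_, e⟩ := h
    exact e
  obtain ⟨N, hN⟩ := hglue t 𝒰 M hM hov
  have hNP : P.P t N :=
    hloc t N 𝒰 (fun i => P.congr _ _ _ ⟨(hN i).some.symm⟩ (hM i))
  refine ⟨picMk P t N hNP, ?_, ?_⟩
  · rintro Z f ⟨j⟩
    rw [picSmall_map_picMk]
    change _ = y j
    rw [hyM j, picMk_eq_picMk_iff]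
    exact hN j
  · intro z hz
    have hzb : picBase P z = t := by
      apply 𝒰.hom_ext
      intro j
      rw [ht j, ← picBase_map, hz (𝒰.f j) (.mk j)]
    obtain ⟨N', hN', rfl⟩ := exists_picMk_of_base P z t hzb
    rw [picMk_eq_picMk_iff]
    refine hsep t N' N 𝒰 hN' hNP (fun j => ?_)
    have h := hz (𝒰.f j) (.mk j)
    rw [picSmall_map_picMk] at h
    change _ = y j at h
    rw [hyM j, picMk_eq_picMk_iff] at h
    exact ⟨h.some ≪≫ (hN j).some.symm⟩

/-- The sheaf `T ↦ {(t, class of a rigidified bundle in the cut)}`. -/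
def picSheaf (P : SubPicCondition c ε) (hloc : IsLocalCut P) (hsep : RigSep P)
    (hglue : RigGlue P) : Sheaf Scheme.zariskiTopology.{u} (Type u) :=
  ⟨picSmall P, (isSheaf_iff_isSheaf_of_type _ _).2 (isSheaf_picSmall P hloc hsep hglue)⟩

end

end Fermat.Agent.S25.MACH.SC3
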