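/-
S25, package SC3 (machine), part 2: from charts to the representing scheme, in Prelude terms.
(helper970.)  Builds on `SC3.Functor` (the Zariski sheaf `picSheaf`), `OpenCriterion`
(helper1945, verbatim) and `PicTop` (helper6511, verbatim).

Main result: `Fermat.Agent.S25.MACH.SC3.exists_represents_of_charts`.
Inputs, all in the language of the Prelude (`RigidifiedLineBundle`, `pullbackAlong`):
* (loc), (sep), (glue) for the cut `P` (package SC2);
* a family of charts `x i : X i ⟶ Spec R` with rigidified bundles `Q i` in the cut such that,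
  on AFFINE test schemes,
  - `hinj`  : classifying maps into a chart are unique,
  - `hopen` : the locus where a bundle is classified by the chart `i` is open, compatibly with
              base change,
  and on points with values in algebraically closed fields
  - `hcover`: every bundle is classified by some chart.
Output: a designation `D`, a `RepresentsRelSubPic c ε P D`, and open immersions
`j i : X i ⟶ D.P` over `Spec R` covering `D.P`, along which the Poincaré bundle restricts to `Q i`.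
-/
import Fermat.Agent.S25.MACH.SC3.Functor
import Fermat.Agent.S25.MACH.OpenCriterion

set_option autoImplicit false

universe u

open CategoryTheory CategoryTheory.Limits AlgebraicGeometry AlgebraicGeometry.RelPicard NeronModelInfra
  GoodReductionJacobian Opposite

namespace Fermat.Agent.S25.MACH.SC3

open Fermat.Agent.S25.MACH.PicTop Fermat.Agent.S25.MACH.OpenCriterion

noncomputable section

variable {R : Type u} [CommRing R] {C : Scheme.{u}} {c : C ⟶ Spec (CommRingCat.of R)}
  {ε : SchemeHomOver (𝟙 (Spec (CommRingCat.of R))) c}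

/-- The morphism of presheaves `yoneda X ⟶ picSmall P` given by a bundle on `X`. -/
def chartHom (P : SubPicCondition c ε) {X : Scheme.{u}} (x : X ⟶ Spec (CommRingCat.of R))
    (Q : RigidifiedLineBundle c ε x) (hQ : P.P x Q) : yoneda.obj X ⟶ picSmall P :=
  yonedaEquiv.symm (picMk P x Q hQ)

theorem chartHom_app (P : SubPicCondition c ε) {X : Scheme.{u}}
    (x : X ⟶ Spec (CommRingCat.of R)) (Q : RigidifiedLineBundle c ε x) (hQ : P.P x Q)
    {T : Scheme.{u}} (g : T ⟶ X) :
    (chartHom P x Q hQ).app (op T) g = (picSmall P).map g.op (picMk P x Q hQ) :=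
  rfl

theorem yonedaEquiv_chartHom (P : SubPicCondition c ε) {X : Scheme.{u}}
    (x : X ⟶ Spec (CommRingCat.of R)) (Q : RigidifiedLineBundle c ε x) (hQ : P.P x Q) :
    yonedaEquiv (chartHom P x Q hQ) = picMk P x Q hQ := by
  rw [chartHom, Equiv.apply_symm_apply]

/-- An element of `picSmall P` over `T` is in the image of the chart iff it is classified by
the chart. -/
theorem mem_range_chartHom_iff (P : SubPicCondition c ε) {X : Scheme.{u}}
    (x : X ⟶ Spec (CommRingCat.of R)) (Q : RigidifiedLineBundle c ε x) (hQ : P.P x Q)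
    {T : Scheme.{u}} {a : T ⟶ Spec (CommRingCat.of R)} (A : RigidifiedLineBundle c ε a)
    (hA : P.P a A) :
    picMk P a A hA ∈ Set.range ((chartHom P x Q hQ).app (op T)) ↔
      ∃ g : SchemeHomOver a x, Nonempty ((Q.pullbackAlong g).L ≅ A.L) := by
  constructor
  · rintro ⟨g, hg⟩
    rw [chartHom_app] at hg
    obtain ⟨h, ⟨e⟩⟩ := (picMk_eq_map_picMk_iff P g Q hQ A hA).1 hg.symm
    exact ⟨⟨g, h⟩, ⟨e.symm⟩⟩
  · rintro ⟨⟨g, h⟩, ⟨e⟩⟩
    refine ⟨g, ?_⟩
    rw [chartHom_app]
    exact ((picMk_eq_map_picMk_iff P g Q hQ A hA).2 ⟨h, ⟨e.symm⟩⟩).symm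

/-- **SC3, the machine in Prelude terms.**  See the header of this file. -/
theorem exists_represents_of_charts (P : SubPicCondition c ε)
    (hloc : IsLocalCut P) (hsep : RigSep P) (hglue : RigGlue P)
    {ι : Type u} (X : ι → Scheme.{u}) (x : ∀ i, X i ⟶ Spec (CommRingCat.of R))
    (Q : ∀ i, RigidifiedLineBundle c ε (x i)) (hQ : ∀ i, P.P (x i) (Q i))
    (hinj : ∀ (i : ι) (A : CommRingCat.{u}) (a : Spec A ⟶ Spec (CommRingCat.of R))
      (g g' : SchemeHomOver a (x i)),
      Nonempty (((Q i).pullbackAlong g).L ≅ ((Q i).pullbackAlong g').L) → g = g')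
    (hopen : ∀ (i : ι) (A : CommRingCat.{u}) (a : Spec A ⟶ Spec (CommRingCat.of R))
      (M : RigidifiedLineBundle c ε a), P.P a M →
      ∃ W : (Spec A).Opens, ∀ (A' : CommRingCat.{u}) (φ : A ⟶ A'),
        (∃ g : SchemeHomOver (Spec.map φ ≫ a) (x i),
          Nonempty (((Q i).pullbackAlong g).L ≅
            (M.pullbackAlong (⟨Spec.map φ, rfl⟩ : SchemeHomOver (Spec.map φ ≫ a) a)).L)) ↔
          Set.range ⇑(Spec.map φ) ⊆ (W : Set (Spec A)))
    (hcover : ∀ (K : Type u) [Field K] [IsAlgClosed K]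
      (a : Spec (CommRingCat.of K) ⟶ Spec (CommRingCat.of R))
      (M : RigidifiedLineBundle c ε a), P.P a M →
      ∃ (i : ι) (g : SchemeHomOver a (x i)), Nonempty (((Q i).pullbackAlong g).L ≅ M.L)) :
    ∃ (D : RelativePic0Designation R c) (h : RepresentsRelSubPic c ε P D) (j : ∀ i, X i ⟶ D.P),
      (∀ i, IsOpenImmersion (j i)) ∧ (∀ z : D.P, ∃ i, z ∈ Set.range ⇑(j i)) ∧
      ∃ hj : ∀ i, j i ≫ D.toBase = x i,
        ∀ i, Nonempty ((h.poincare.pullbackAlong ⟨j i, hj i⟩).L ≅ (Q i).L) := by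
  let F : Sheaf Scheme.zariskiTopology.{u} (Type u) := picSheaf P hloc hsep hglue
  let φ : (i : ι) → yoneda.obj (X i) ⟶ F.1 := fun i => chartHom P (x i) (Q i) (hQ i)
  have hinj' : ∀ i, AffInj (φ i) := by
    intro i A g g' hgg'
    change (chartHom P (x i) (Q i) (hQ i)).app (op (Spec A)) g =
      (chartHom P (x i) (Q i) (hQ i)).app (op (Spec A)) g' at hgg'
    rw [chartHom_app, chartHom_app, picSmall_map_picMk, picMk_eq_map_picMk_iff] at hgg'
    obtain ⟨h, e⟩ := hgg'
    have := hinj i A (g ≫ x i) ⟨g, rfl⟩ ⟨g', h⟩ e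
    exact congrArg Subtype.val this
  have hopen' : ∀ i, AffOpen (φ i) := by
    intro i A ξ
    obtain ⟨a, M, hM, rfl⟩ := exists_picMk P ξ
    obtain ⟨W, hW⟩ := hopen i A a M hM
    refine ⟨W, fun A' ψ => ?_⟩
    rw [← hW A' ψ]
    change (picSmall P).map (Spec.map ψ).op (picMk P a M hM) ∈
      Set.range ((chartHom P (x i) (Q i) (hQ i)).app (op (Spec A'))) ↔ _
    rw [picSmall_map_picMk, mem_range_chartHom_iff]
  have hcover' : FieldCover φ := by
    intro K _ _ ξ
    obtain ⟨a, M, hM, rfl⟩ := exists_picMk P ξ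
    obtain ⟨i, g, e⟩ := hcover K a M hM
    exact ⟨i, (mem_range_chartHom_iff P (x i) (Q i) (hQ i) M hM).2 ⟨g, e⟩⟩
  obtain ⟨J, υ, j, huniv, hj1, hj2, hj3⟩ := exists_universal hinj' hopen' hcover'
  obtain ⟨tJ, Pc, hPc, rfl⟩ := exists_picMk P υ
  have huniv' : ∀ {T : Scheme.{u}} (t : T ⟶ Spec (CommRingCat.of R))
      (M : RigidifiedLineBundle c ε t), P.P t M →
      ∃! g : SchemeHomOver t tJ, Nonempty ((Pc.pullbackAlong g).L ≅ M.L) := by
    intro T t M hM
    obtain ⟨g, hg, hguniq⟩ := huniv T (picMk P t M hM)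
    obtain ⟨h, ⟨e⟩⟩ := (picMk_eq_map_picMk_iff P g Pc hPc M hM).1 hg.symm
    refine ⟨⟨g, h⟩, ⟨e.symm⟩, ?_⟩
    rintro ⟨g', h'⟩ ⟨e'⟩
    apply Subtype.ext
    exact hguniq g' ((picMk_eq_map_picMk_iff P g' Pc hPc M hM).2 ⟨h', ⟨e'.symm⟩⟩).symm
  obtain ⟨⟨zs, hzs⟩, hz, -⟩ := huniv' (𝟙 (Spec (CommRingCat.of R)))
    (RigidifiedLineBundle.unit (c := c) (ε := ε) (𝟙 _)) (P.unit_mem _)
  have hj4 : ∀ i, ∃ h : j i ≫ tJ = x i,
      Nonempty ((Pc.pullbackAlong ⟨j i, h⟩).L ≅ (Q i).L) := by
    intro i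
    have h3 := hj3 i
    change (picSmall P).map (j i).op (picMk P tJ Pc hPc) =
      yonedaEquiv (chartHom P (x i) (Q i) (hQ i)) at h3
    rw [yonedaEquiv_chartHom] at h3
    obtain ⟨h, ⟨e⟩⟩ := (picMk_eq_map_picMk_iff P (j i) Pc hPc (Q i) (hQ i)).1 h3.symm
    exact ⟨h, ⟨e.symm⟩⟩
  exact ⟨⟨J, tJ, zs, hzs⟩,
    { poincare := Pc
      poincare_mem := hPc
      univ := fun t M hM => huniv' t M hM
      zero := hz },
    j, hj1, hj2, fun i => (hj4 i).1, fun i => (hj4 i).2⟩

/-- A property of morphisms which is Zariski-local at the source can be checked on a covering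
family of open charts (e.g. the charts `j i` produced by `exists_represents_of_charts`). -/
theorem of_charts (Pm : MorphismProperty Scheme.{u}) [IsZariskiLocalAtSource Pm]
    {J B : Scheme.{u}} (f : J ⟶ B) {ι : Type u} (X : ι → Scheme.{u}) (j : ∀ i, X i ⟶ J)
    (hj : ∀ i, IsOpenImmersion (j i)) (hcov : ∀ z : J, ∃ i, z ∈ Set.range ⇑(j i))
    (h : ∀ i, Pm (j i ≫ f)) : Pm f := by
  let 𝒰 : J.OpenCover := Scheme.Cover.mkOfCovers ι X j
    (fun z => by obtain ⟨i, y, hy⟩ := hcov z; exact ⟨i, y, hy⟩) hj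
  exact (IsZariskiLocalAtSource.iff_of_openCover (P := Pm) 𝒰).2 h

set_option backward.isDefEq.respectTransparency.types false in
/-- Smoothness can be checked on a covering family of open charts. -/
theorem smooth_of_charts {J B : Scheme.{u}} (f : J ⟶ B) {ι : Type u} (X : ι → Scheme.{u})
    (j : ∀ i, X i ⟶ J) (hj : ∀ i, IsOpenImmersion (j i))
    (hcov : ∀ z : J, ∃ i, z ∈ Set.range ⇑(j i)) (h : ∀ i, Smooth (j i ≫ f)) : Smooth f :=
  of_charts @Smooth f X j hj hcov h

set_option backward.isDefEq.respectTransparency.types false in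
/-- Local finite type can be checked on a covering family of open charts. -/
theorem locallyOfFiniteType_of_charts {J B : Scheme.{u}} (f : J ⟶ B) {ι : Type u}
    (X : ι → Scheme.{u}) (j : ∀ i, X i ⟶ J) (hj : ∀ i, IsOpenImmersion (j i))
    (hcov : ∀ z : J, ∃ i, z ∈ Set.range ⇑(j i)) (h : ∀ i, LocallyOfFiniteType (j i ≫ f)) :
    LocallyOfFiniteType f :=
  of_charts @LocallyOfFiniteType f X j hj hcov h

end

end Fermat.Agent.S25.MACH.SC3
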